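import Mathlib
import Fermat.Prelude.Def_CuspForm_IntegralStructure
import Fermat.Prelude.Thm_CongruenceSubgroup_one_mem_strictPeriods_Gamma0

set_option autoImplicit false

namespace Fermat.Agent.S23

open UpperHalfPlane Filter
open scoped MatrixGroups ModularForm Manifold

/-- `Γ₀(N)` as a subgroup of `GL(2, ℝ)`. -/
abbrev G0 (N : ℕ) : Subgroup (GL (Fin 2) ℝ) :=
  Subgroup.map (Matrix.SpecialLinearGroup.mapGL ℝ) (CongruenceSubgroup.Gamma0 N)

/-- `g` is the underlying function of a weight `k` modular form of level `Γ`. -/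
def IsMF (Γ : Subgroup (GL (Fin 2) ℝ)) (k : ℤ) (g : ℍ → ℂ) : Prop :=
  ∃ G : ModularForm Γ k, (G : ℍ → ℂ) = g

/-- `g` is the underlying function of a weight `k` cusp form of level `Γ`. -/
def IsCF (Γ : Subgroup (GL (Fin 2) ℝ)) (k : ℤ) (g : ℍ → ℂ) : Prop :=
  ∃ G : CuspForm Γ k, (G : ℍ → ℂ) = g

/-- Functions on `ℍ` which are `1`-periodic, holomorphic and bounded at `i∞`: the class on
which `qExpansion 1` is an injective ring homomorphism. -/
structure Nice (f : ℍ → ℂ) : Prop where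
  per : Function.Periodic (f ∘ ofComplex) 1
  holo : MDiff f
  bdd : IsBoundedAtImInfty f

section IsMF

variable {Γ : Subgroup (GL (Fin 2) ℝ)} {k k₁ k₂ : ℤ} {f g : ℍ → ℂ}

lemma IsMF.coe (G : ModularForm Γ k) : IsMF Γ k (G : ℍ → ℂ) := ⟨G, rfl⟩

lemma IsCF.coe (G : CuspForm Γ k) : IsCF Γ k (G : ℍ → ℂ) := ⟨G, rfl⟩

lemma IsCF.isMF (h : IsCF Γ k f) : IsMF Γ k f := by
  obtain ⟨G, rfl⟩ := h
  exact ⟨ModularFormClass.modularForm G, rfl⟩

lemma IsMF.weight_congr (h : IsMF Γ k₁ f) (hk : k₁ = k₂) : IsMF Γ k₂ f := hk ▸ h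

lemma IsCF.weight_congr (h : IsCF Γ k₁ f) (hk : k₁ = k₂) : IsCF Γ k₂ f := hk ▸ h

lemma IsMF.zero : IsMF Γ k (0 : ℍ → ℂ) := ⟨0, rfl⟩

lemma IsCF.zero : IsCF Γ k (0 : ℍ → ℂ) := ⟨0, rfl⟩

lemma IsMF.add (hf : IsMF Γ k f) (hg : IsMF Γ k g) : IsMF Γ k (f + g) := by
  obtain ⟨F, rfl⟩ := hf
  obtain ⟨G, rfl⟩ := hg
  exact ⟨F + G, rfl⟩

lemma IsCF.add (hf : IsCF Γ k f) (hg : IsCF Γ k g) : IsCF Γ k (f + g) := by
  obtain ⟨F, rfl⟩ := hf
  obtain ⟨G, rfl⟩ := hg
  exact ⟨F + G, rfl⟩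

lemma IsMF.neg (hf : IsMF Γ k f) : IsMF Γ k (-f) := by
  obtain ⟨F, rfl⟩ := hf
  exact ⟨-F, rfl⟩

lemma IsCF.neg (hf : IsCF Γ k f) : IsCF Γ k (-f) := by
  obtain ⟨F, rfl⟩ := hf
  exact ⟨-F, rfl⟩

lemma IsMF.sub (hf : IsMF Γ k f) (hg : IsMF Γ k g) : IsMF Γ k (f - g) := by
  obtain ⟨F, rfl⟩ := hf
  obtain ⟨G, rfl⟩ := hg
  exact ⟨F - G, rfl⟩

lemma IsCF.sub (hf : IsCF Γ k f) (hg : IsCF Γ k g) : IsCF Γ k (f - g) := by
  obtain ⟨F, rfl⟩ := hf
  obtain ⟨G, rfl⟩ := hg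
  exact ⟨F - G, rfl⟩

lemma IsMF.smul [Γ.HasDetOne] (c : ℂ) (hf : IsMF Γ k f) : IsMF Γ k (c • f) := by
  obtain ⟨F, rfl⟩ := hf
  exact ⟨c • F, rfl⟩

lemma IsCF.smul [Γ.HasDetOne] (c : ℂ) (hf : IsCF Γ k f) : IsCF Γ k (c • f) := by
  obtain ⟨F, rfl⟩ := hf
  exact ⟨c • F, rfl⟩

lemma IsMF.const [Γ.HasDetOne] (c : ℂ) : IsMF Γ 0 (fun _ => c) :=
  ⟨ModularForm.const c, rfl⟩

lemma IsMF.one [Γ.HasDetOne] : IsMF Γ 0 (1 : ℍ → ℂ) :=
  ⟨ModularForm.const 1, rfl⟩

lemma IsMF.mul [Γ.HasDetPlusMinusOne] (hf : IsMF Γ k₁ f) (hg : IsMF Γ k₂ g) :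
    IsMF Γ (k₁ + k₂) (f * g) := by
  obtain ⟨F, rfl⟩ := hf
  obtain ⟨G, rfl⟩ := hg
  exact ⟨F.mul G, rfl⟩

lemma IsCF.mul_isMF [Γ.HasDetPlusMinusOne] (hf : IsCF Γ k₁ f) (hg : IsMF Γ k₂ g) :
    IsCF Γ (k₁ + k₂) (f * g) := by
  obtain ⟨F, rfl⟩ := hf
  obtain ⟨G, rfl⟩ := hg
  exact ⟨F.mulModularForm G, rfl⟩

lemma IsMF.mul_isCF [Γ.HasDetPlusMinusOne] (hf : IsMF Γ k₁ f) (hg : IsCF Γ k₂ g) :
    IsCF Γ (k₁ + k₂) (f * g) := by
  have := (hg.mul_isMF hf).weight_congr (add_comm k₂ k₁)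
  rwa [mul_comm] at this

lemma IsMF.pow [Γ.HasDetOne] (hf : IsMF Γ k f) (n : ℕ) : IsMF Γ (k * n) (f ^ n) := by
  induction n with
  | zero => simpa using (IsMF.one (Γ := Γ))
  | succ n ih =>
    have := ih.mul hf
    rw [pow_succ]
    exact this.weight_congr (by push_cast; ring)

lemma IsMF.sum [Γ.HasDetOne] {ι : Type*} (s : Finset ι) {F : ι → ℍ → ℂ}
    (h : ∀ i ∈ s, IsMF Γ k (F i)) : IsMF Γ k (∑ i ∈ s, F i) := by
  classical
  induction s using Finset.induction_on with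
  | empty => simpa using (IsMF.zero (Γ := Γ) (k := k))
  | insert a s ha ih =>
    rw [Finset.sum_insert ha]
    exact (h a (Finset.mem_insert_self a s)).add
      (ih fun i hi => h i (Finset.mem_insert_of_mem hi))

lemma IsCF.sum [Γ.HasDetOne] {ι : Type*} (s : Finset ι) {F : ι → ℍ → ℂ}
    (h : ∀ i ∈ s, IsCF Γ k (F i)) : IsCF Γ k (∑ i ∈ s, F i) := by
  classical
  induction s using Finset.induction_on with
  | empty => simpa using (IsCF.zero (Γ := Γ) (k := k))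
  | insert a s ha ih =>
    rw [Finset.sum_insert ha]
    exact (h a (Finset.mem_insert_self a s)).add
      (ih fun i hi => h i (Finset.mem_insert_of_mem hi))

/-- Restriction of the level to a subgroup. -/
lemma IsMF.mono {Γ' : Subgroup (GL (Fin 2) ℝ)} (hΓ : Γ' ≤ Γ) (hf : IsMF Γ k f) :
    IsMF Γ' k f := by
  obtain ⟨F, rfl⟩ := hf
  exact ⟨{ toFun := F
           slash_action_eq' := fun γ hγ => F.slash_action_eq' γ (hΓ hγ)
           holo' := F.holo'
           bdd_at_cusps' := fun hc => F.bdd_at_cusps' (hc.mono hΓ) }, rfl⟩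

lemma IsCF.mono {Γ' : Subgroup (GL (Fin 2) ℝ)} (hΓ : Γ' ≤ Γ) (hf : IsCF Γ k f) :
    IsCF Γ' k f := by
  obtain ⟨F, rfl⟩ := hf
  exact ⟨{ toFun := F
           slash_action_eq' := fun γ hγ => F.slash_action_eq' γ (hΓ hγ)
           holo' := F.holo'
           zero_at_cusps' := fun hc => F.zero_at_cusps' (hc.mono hΓ) }, rfl⟩

lemma G0_le_SL (N : ℕ) : G0 N ≤ 𝒮ℒ := by
  rintro _ ⟨γ, -, rfl⟩
  exact ⟨γ, rfl⟩

/-- Level one forms are forms of level `Γ₀(N)`. -/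
lemma IsMF.toG0 (N : ℕ) (hf : IsMF 𝒮ℒ k f) : IsMF (G0 N) k f := hf.mono (G0_le_SL N)

lemma IsCF.toG0 (N : ℕ) (hf : IsCF 𝒮ℒ k f) : IsCF (G0 N) k f := hf.mono (G0_le_SL N)

end IsMF

section Nice

variable {f g : ℍ → ℂ}

lemma Nice.analyticAt (hf : Nice f) : AnalyticAt ℂ (cuspFunction 1 f) 0 :=
  analyticAt_cuspFunction_zero one_pos hf.per hf.holo hf.bdd

lemma Nice.zero : Nice (0 : ℍ → ℂ) where
  per := fun _ => rfl
  holo := fun _ => mdifferentiableAt_const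
  bdd := zero_form_isBoundedAtImInfty

lemma Nice.const (c : ℂ) : Nice (fun _ : ℍ => c) where
  per := fun _ => rfl
  holo := fun _ => mdifferentiableAt_const
  bdd := Filter.const_boundedAtFilter _ c

lemma Nice.one : Nice (1 : ℍ → ℂ) := Nice.const 1

lemma Nice.add (hf : Nice f) (hg : Nice g) : Nice (f + g) where
  per := fun w => by
    have h1 := hf.per w
    have h2 := hg.per w
    simp only [Function.comp_apply, Pi.add_apply] at h1 h2 ⊢
    rw [h1, h2]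
  holo := hf.holo.add hg.holo
  bdd := hf.bdd.add hg.bdd

lemma Nice.mul (hf : Nice f) (hg : Nice g) : Nice (f * g) where
  per := fun w => by
    have h1 := hf.per w
    have h2 := hg.per w
    simp only [Function.comp_apply, Pi.mul_apply] at h1 h2 ⊢
    rw [h1, h2]
  holo := hf.holo.mul hg.holo
  bdd := hf.bdd.mul hg.bdd

lemma Nice.smul (c : ℂ) (hf : Nice f) : Nice (c • f) := by
  have : c • f = (fun _ : ℍ => c) * f := by ext z; simp
  rw [this]
  exact (Nice.const c).mul hf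

lemma Nice.neg (hf : Nice f) : Nice (-f) := by
  have : -f = (-1 : ℂ) • f := by ext z; simp
  rw [this]
  exact hf.smul _

lemma Nice.sub (hf : Nice f) (hg : Nice g) : Nice (f - g) := by
  rw [sub_eq_add_neg]
  exact hf.add hg.neg

lemma Nice.pow (hf : Nice f) (n : ℕ) : Nice (f ^ n) := by
  induction n with
  | zero => simpa using Nice.one
  | succ n ih => rw [pow_succ]; exact ih.mul hf

lemma Nice.sum {ι : Type*} (s : Finset ι) {F : ι → ℍ → ℂ} (h : ∀ i ∈ s, Nice (F i)) :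
    Nice (∑ i ∈ s, F i) := by
  classical
  induction s using Finset.induction_on with
  | empty => simpa using Nice.zero
  | insert a s ha ih =>
    rw [Finset.sum_insert ha]
    exact (h a (Finset.mem_insert_self a s)).add
      (ih fun i hi => h i (Finset.mem_insert_of_mem hi))

lemma Nice.prod {ι : Type*} (s : Finset ι) {F : ι → ℍ → ℂ} (h : ∀ i ∈ s, Nice (F i)) :
    Nice (∏ i ∈ s, F i) := by
  classical
  induction s using Finset.induction_on with
  | empty => simpa using Nice.one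
  | insert a s ha ih =>
    rw [Finset.prod_insert ha]
    exact (h a (Finset.mem_insert_self a s)).mul
      (ih fun i hi => h i (Finset.mem_insert_of_mem hi))

lemma Nice.qExp_add (hf : Nice f) (hg : Nice g) :
    qExpansion 1 (f + g) = qExpansion 1 f + qExpansion 1 g :=
  qExpansion_add hf.analyticAt hg.analyticAt

lemma Nice.qExp_mul (hf : Nice f) (hg : Nice g) :
    qExpansion 1 (f * g) = qExpansion 1 f * qExpansion 1 g :=
  qExpansion_mul hf.analyticAt hg.analyticAt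

lemma Nice.qExp_smul (c : ℂ) (hf : Nice f) :
    qExpansion 1 (c • f) = c • qExpansion 1 f :=
  qExpansion_smul hf.analyticAt c

lemma Nice.qExp_neg (hf : Nice f) : qExpansion 1 (-f) = -qExpansion 1 f :=
  qExpansion_neg hf.analyticAt

lemma Nice.qExp_sub (hf : Nice f) (hg : Nice g) :
    qExpansion 1 (f - g) = qExpansion 1 f - qExpansion 1 g :=
  qExpansion_sub hf.analyticAt hg.analyticAt

lemma Nice.qExp_pow (hf : Nice f) (n : ℕ) : qExpansion 1 (f ^ n) = qExpansion 1 f ^ n := by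
  induction n with
  | zero => simpa using qExpansion_one 1
  | succ n ih => rw [pow_succ, (hf.pow n).qExp_mul hf, ih, pow_succ]

lemma Nice.qExp_sum {ι : Type*} (s : Finset ι) {F : ι → ℍ → ℂ} (h : ∀ i ∈ s, Nice (F i)) :
    qExpansion 1 (∑ i ∈ s, F i) = ∑ i ∈ s, qExpansion 1 (F i) := by
  classical
  induction s using Finset.induction_on with
  | empty => simpa using qExpansion_zero 1
  | insert a s ha ih =>
    rw [Finset.sum_insert ha, Finset.sum_insert ha,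
      (h a (Finset.mem_insert_self a s)).qExp_add
        (Nice.sum s fun i hi => h i (Finset.mem_insert_of_mem hi)),
      ih fun i hi => h i (Finset.mem_insert_of_mem hi)]

lemma Nice.qExp_eq_zero_iff (hf : Nice f) : qExpansion 1 f = 0 ↔ f = 0 :=
  qExpansion_eq_zero_iff one_pos hf.per hf.holo hf.bdd

/-- `qExpansion 1` is injective on nice functions. -/
lemma Nice.eq_of_qExp_eq (hf : Nice f) (hg : Nice g) (h : qExpansion 1 f = qExpansion 1 g) :
    f = g := by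
  have := (hf.sub hg).qExp_eq_zero_iff.mp (by rw [hf.qExp_sub hg, h, sub_self])
  exact sub_eq_zero.mp this

lemma Nice.hasSum (hf : Nice f) (τ : ℍ) :
    HasSum (fun m : ℕ => (qExpansion 1 f).coeff m • Function.Periodic.qParam 1 τ ^ m) (f τ) :=
  hasSum_qExpansion one_pos hf.per hf.holo hf.bdd τ

/-- Modular forms for a group with strict period `1` and a cusp at `∞` are nice. -/
lemma IsMF.nice {Γ : Subgroup (GL (Fin 2) ℝ)} {k : ℤ} (hΓ : (1 : ℝ) ∈ Γ.strictPeriods)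
    (hf : IsMF Γ k f) : Nice f := by
  obtain ⟨F, rfl⟩ := hf
  have : Fact (IsCusp OnePoint.infty Γ) := ⟨Γ.isCusp_of_mem_strictPeriods one_pos hΓ⟩
  exact ⟨SlashInvariantFormClass.periodic_comp_ofComplex F hΓ, ModularFormClass.holo F,
    ModularFormClass.bdd_at_infty F⟩

lemma one_mem_strictPeriods_G0 (N : ℕ) : (1 : ℝ) ∈ (G0 N).strictPeriods :=
  CongruenceSubgroup.one_mem_strictPeriods_Gamma0 N

lemma IsMF.niceG0 {N : ℕ} {k : ℤ} (hf : IsMF (G0 N) k f) : Nice f :=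
  hf.nice (one_mem_strictPeriods_G0 N)

lemma IsMF.niceSL {k : ℤ} (hf : IsMF 𝒮ℒ k f) : Nice f :=
  hf.nice one_mem_strictPeriods_SL

end Nice

end Fermat.Agent.S23
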