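import Fermat.Agent.S23.Defs
import Fermat.Agent.Lib.HoloQuotient

set_option autoImplicit false

namespace Fermat.Agent.S23

open UpperHalfPlane Filter
open scoped MatrixGroups ModularForm Manifold

namespace IntegralClosure

open Fermat.Agent.Lib.HoloQuotient

/-- Level-one forms are invariant under the `SL(2, ℤ)` slash action. -/
lemma slash_eq_of_isMF_SL {k : ℤ} {g : ℍ → ℂ} (hg : IsMF 𝒮ℒ k g) (δ : SL(2, ℤ)) :
    g ∣[k] δ = g := by
  obtain ⟨F, rfl⟩ := hg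
  exact SlashInvariantFormClass.slash_action_eq F _ ⟨δ, rfl⟩

lemma slash_eq_of_isMF_G0 {N : ℕ} {k : ℤ} {g : ℍ → ℂ} (hg : IsMF (G0 N) k g)
    {γ : SL(2, ℤ)} (hγ : γ ∈ CongruenceSubgroup.Gamma0 N) : g ∣[k] γ = g := by
  obtain ⟨F, rfl⟩ := hg
  exact SlashInvariantFormClass.slash_action_eq F _ ⟨γ, hγ, rfl⟩

lemma mdiff_of_isMF {Γ : Subgroup (GL (Fin 2) ℝ)} {k : ℤ} {g : ℍ → ℂ} (hg : IsMF Γ k g) :
    MDiff g := by
  obtain ⟨F, rfl⟩ := hg
  exact ModularFormClass.holo F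

lemma isBoundedAtImInfty_of_isMF_SL {k : ℤ} {g : ℍ → ℂ} (hg : IsMF 𝒮ℒ k g) :
    IsBoundedAtImInfty g := hg.niceSL.bdd

lemma isZeroAtImInfty_of_isCF_SL {k : ℤ} {g : ℍ → ℂ} (hg : IsCF 𝒮ℒ k g) :
    IsZeroAtImInfty g := by
  obtain ⟨F, rfl⟩ := hg
  exact CuspFormClass.zero_at_infty F

/-- Reindexing of the relation to the shape used in `Lib.HoloQuotient`. -/
lemma reindex_rel {n : ℕ} {Num Den : ℍ → ℂ} {C : ℕ → ℍ → ℂ}
    (hrel : ∀ z, Num z ^ (n + 1) +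
      ∑ r ∈ Finset.Icc 1 (n + 1), C r z * Num z ^ (n + 1 - r) * Den z ^ r = 0) :
    ∀ z, Num z ^ (n + 1) + ∑ j ∈ Finset.range (n + 1),
      C (j + 1) z * Den z ^ (j + 1) * Num z ^ (n - j) = 0 := by
  intro z
  rw [← hrel z]
  congr 1
  rw [← Finset.Ico_add_one_right_eq_Icc, Finset.sum_Ico_eq_sum_range]
  simp only [Nat.add_sub_cancel]
  refine Finset.sum_congr rfl fun j _ => ?_
  have e : n + 1 - (1 + j) = n - j := by omega
  rw [e, add_comm 1 j]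
  ring

/-- The common core: the holomorphic quotient with its invariance and its monic relation
after slashing. -/
lemma core (N : ℕ) {k W : ℤ} {n : ℕ}
    {Num Den : ℍ → ℂ} (hNum : IsMF (G0 N) (k + W) Num) (hDen : IsMF (G0 N) W Den)
    (hDen0 : Den ≠ 0) {C : ℕ → ℍ → ℂ} (hC : ∀ r : ℕ, 1 ≤ r → IsMF 𝒮ℒ (k * r) (C r))
    (hrel : ∀ z, Num z ^ (n + 1) +
      ∑ r ∈ Finset.Icc 1 (n + 1), C r z * Num z ^ (n + 1 - r) * Den z ^ r = 0) :
    ∃ G : ℍ → ℂ, MDiff G ∧ G * Den = Num ∧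
      (∀ γ ∈ CongruenceSubgroup.Gamma0 N, G ∣[k] γ = G) ∧
      ∀ δ : SL(2, ℤ), ∀ z, (G ∣[k] δ) z ^ (n + 1) +
        ∑ j ∈ Finset.range (n + 1), C (j + 1) z * (G ∣[k] δ) z ^ (n - j) = 0 := by
  obtain ⟨G, hGd, hGB, hGrel⟩ := exists_mdiff_quotient (mdiff_of_isMF hNum) (mdiff_of_isMF hDen) hDen0 n
    (fun j => C (j + 1)) (fun j => mdiff_of_isMF (hC (j + 1) (by omega))) (reindex_rel hrel)
  have hGB' : G * Den = Num := funext hGB
  refine ⟨G, hGd, hGB', ?_, ?_⟩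
  · intro γ hγ
    exact slash_eq_of_mul_eq hGd (mdiff_of_isMF hDen) hDen0 hGB' γ
      (slash_eq_of_isMF_G0 hNum hγ) (slash_eq_of_isMF_G0 hDen hγ)
  · intro δ z
    have := monic_relation_slash n (fun j => C (j + 1)) k δ hGrel z
    rw [← this]
    congr 1
    refine Finset.sum_congr rfl fun j _ => ?_
    have hw : k * ((j : ℤ) + 1) = k * ((j + 1 : ℕ) : ℤ) := by push_cast; ring
    rw [hw, slash_eq_of_isMF_SL (hC (j + 1) (by omega)) δ]

end IntegralClosure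

open IntegralClosure Fermat.Agent.Lib.HoloQuotient

/-- **Module E (modular forms).** If `Num / Den` is a root of a monic polynomial whose
coefficients are level-one modular forms of the right weights, then `Num / Den` is (the function
of) a modular form of level `Γ₀(N)`. -/
theorem exists_isMF_of_integral (N : ℕ) [NeZero N] {k W : ℤ} {m : ℕ} (hm : 0 < m)
    {Num Den : ℍ → ℂ} (hNum : IsMF (G0 N) (k + W) Num) (hDen : IsMF (G0 N) W Den)
    (hDen0 : Den ≠ 0) {C : ℕ → ℍ → ℂ} (hC : ∀ r : ℕ, 1 ≤ r → IsMF 𝒮ℒ (k * r) (C r))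
    (hrel : ∀ z, Num z ^ m + ∑ r ∈ Finset.Icc 1 m, C r z * Num z ^ (m - r) * Den z ^ r = 0) :
    ∃ G, IsMF (G0 N) k G ∧ G * Den = Num := by
  obtain ⟨n, rfl⟩ : ∃ n, m = n + 1 := ⟨m - 1, by omega⟩
  obtain ⟨G, hGd, hGB, hGinv, hGrel⟩ := core N hNum hDen hDen0 hC hrel
  refine ⟨G, ⟨{ toFun := G
                slash_action_eq' := ?_
                holo' := hGd
                bdd_at_cusps' := ?_ }, rfl⟩, hGB⟩
  · rintro _ ⟨γ, hγ, rfl⟩
    exact hGinv γ hγ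
  · intro c hc
    rw [Subgroup.IsArithmetic.isCusp_iff_isCusp_SL2Z] at hc
    rw [OnePoint.isBoundedAt_iff_forall_SL2Z hc]
    intro δ _
    exact isBoundedAtImInfty_of_monic n (fun j => C (j + 1))
      (fun j _ => isBoundedAtImInfty_of_isMF_SL (hC (j + 1) (by omega))) (hGrel δ)

/-- **Module E (cusp forms).** Same with cuspidal level-one coefficients: the quotient is a cusp
form. -/
theorem exists_isCF_of_integral (N : ℕ) [NeZero N] {k W : ℤ} {m : ℕ} (hm : 0 < m)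
    {Num Den : ℍ → ℂ} (hNum : IsMF (G0 N) (k + W) Num) (hDen : IsMF (G0 N) W Den)
    (hDen0 : Den ≠ 0) {C : ℕ → ℍ → ℂ} (hC : ∀ r : ℕ, 1 ≤ r → IsCF 𝒮ℒ (k * r) (C r))
    (hrel : ∀ z, Num z ^ m + ∑ r ∈ Finset.Icc 1 m, C r z * Num z ^ (m - r) * Den z ^ r = 0) :
    ∃ G, IsCF (G0 N) k G ∧ G * Den = Num := by
  obtain ⟨n, rfl⟩ : ∃ n, m = n + 1 := ⟨m - 1, by omega⟩
  obtain ⟨G, hGd, hGB, hGinv, hGrel⟩ :=
    core N hNum hDen hDen0 (fun r hr => (hC r hr).isMF) hrel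
  refine ⟨G, ⟨{ toFun := G
                slash_action_eq' := ?_
                holo' := hGd
                zero_at_cusps' := ?_ }, rfl⟩, hGB⟩
  · rintro _ ⟨γ, hγ, rfl⟩
    exact hGinv γ hγ
  · intro c hc
    rw [Subgroup.IsArithmetic.isCusp_iff_isCusp_SL2Z] at hc
    rw [OnePoint.isZeroAt_iff_forall_SL2Z hc]
    intro δ _
    exact isZeroAtImInfty_of_monic n (fun j => C (j + 1))
      (fun j _ => isZeroAtImInfty_of_isCF_SL (hC (j + 1) (by omega))) (hGrel δ)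

end Fermat.Agent.S23
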