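import Fermat.Agent.S23.Defs
import Fermat.Agent.Lib.TraceInterp

set_option autoImplicit false

namespace Fermat.Agent.S23

open UpperHalfPlane Filter
open scoped MatrixGroups ModularForm Manifold

namespace Trace

open Fermat.Agent.Lib.TraceInterp SlashInvariantForm

/-- The coset space `SL(2, ℤ) / Γ₀(N)`. -/
abbrev Q (N : ℕ) : Type := ↥𝒮ℒ ⧸ (G0 N).subgroupOf 𝒮ℒ

theorem sum_Icc_one_eq (g : ℕ → ℂ) (m : ℕ) :
    ∑ r ∈ Finset.Icc 1 m, g r = ∑ j ∈ Finset.range m, g (j + 1) := by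
  induction m with
  | zero => simp
  | succ n ih => rw [Finset.sum_Icc_succ_top (by omega), ih, Finset.sum_range_succ]

theorem integrality_core (N : ℕ) [NeZero N] {k : ℤ} {F' : Type*} [FunLike F' ℍ ℂ]
    [ModularFormClass F' (G0 N) k] (f : F') (z : ℍ) :
    f z ^ Nat.card (Q N) + ∑ r ∈ Finset.Icc 1 (Nat.card (Q N)),
      ((-1) ^ r * esymmMF 𝒮ℒ f r z) * f z ^ (Nat.card (Q N) - r) = 0 := by
  rw [sum_Icc_one_eq]
  have h := pow_add_sum_esymmMF_eq_zero 𝒮ℒ f z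
  rw [← h]
  congr 1
  refine Finset.sum_congr rfl fun j _ => ?_
  rw [show Nat.card (Q N) - (j + 1) = Nat.card (Q N) - 1 - j by omega]

/-- A chosen element of `SL(2, ℤ)` whose image is the inverse of a representative of a
coset. -/
noncomputable def cosetRep (N : ℕ) (q : Q N) : SL(2, ℤ) :=
  Classical.choose (MonoidHom.mem_range.mp (inv_mem (Quotient.out q).2))

theorem cosetRep_spec (N : ℕ) (q : Q N) :
    Matrix.SpecialLinearGroup.mapGL ℝ (cosetRep N q) = ((Quotient.out q : ↥𝒮ℒ) : GL (Fin 2) ℝ)⁻¹ :=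
  Classical.choose_spec (MonoidHom.mem_range.mp (inv_mem (Quotient.out q).2))

theorem slash_cosetRep (N : ℕ) {w : ℤ} {F' : Type*} [FunLike F' ℍ ℂ]
    [SlashInvariantFormClass F' (G0 N) w] (F : F') (q : Q N) :
    (F : ℍ → ℂ) ∣[w] (cosetRep N q) = quotientFunc F q := by
  conv_rhs => rw [← Quotient.out_eq q]
  rw [quotientFunc_mk, ModularForm.SL_slash, ← cosetRep_spec]
  rfl

theorem cosetRep_notMem (N : ℕ) (q : Q N) (hq : q ≠ (QuotientGroup.mk (1 : ↥𝒮ℒ) : Q N)) :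
    cosetRep N q ∉ CongruenceSubgroup.Gamma0 N := by
  intro hmem
  apply hq
  rw [← Quotient.out_eq q]
  refine (QuotientGroup.eq.mpr ?_).symm
  rw [Subgroup.mem_subgroupOf]
  have h1 : Matrix.SpecialLinearGroup.mapGL ℝ (cosetRep N q) ∈ G0 N :=
    Subgroup.mem_map_of_mem _ hmem
  rw [cosetRep_spec] at h1
  simpa using h1

end Trace

open Fermat.Agent.Lib.TraceInterp SlashInvariantForm in
theorem trace_package (N : ℕ) [NeZero N] {w : ℤ} {F : ℍ → ℂ} (hF : IsMF (G0 N) w F) :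
    ∃ (m : ℕ) (ψ : ℕ → ℍ → ℂ) (ι : Type) (_ : Fintype ι) (γ : ι → SL(2, ℤ)),
      0 < m ∧ (∀ e : ℕ, IsMF 𝒮ℒ (w * e) (ψ e)) ∧
      (∀ i, γ i ∉ CongruenceSubgroup.Gamma0 N) ∧
      (∀ z, ∑ e ∈ Finset.range m, ψ e z * F z ^ (m - 1 - e) = ∏ i, (F z - (F ∣[w] γ i) z)) ∧
      ∀ (k : ℤ) (f : ℍ → ℂ), IsMF (G0 N) k f →
        ∃ q : ℕ → ℍ → ℂ, (∀ e : ℕ, IsMF 𝒮ℒ (k + w * e) (q e)) ∧
          ∀ z, f z * ∑ e ∈ Finset.range m, ψ e z * F z ^ (m - 1 - e)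
            = ∑ e ∈ Finset.range m, q e z * F z ^ (m - 1 - e) := by
  classical
  obtain ⟨F, rfl⟩ := hF
  let _ : Fintype (Trace.Q N) := Fintype.ofFinite _
  have key : ∀ z : ℍ, ∑ e ∈ Finset.range (Nat.card (Trace.Q N)),
      ((-1) ^ e * ((Nat.card (Trace.Q N) - e : ℕ) : ℂ) * esymmMF 𝒮ℒ F e z)
        * F z ^ (Nat.card (Trace.Q N) - 1 - e) =
      ∏ q ∈ Finset.univ.erase (QuotientGroup.mk (1 : ↥𝒮ℒ) : Trace.Q N),
        (F z - quotientFunc F q z) := by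
    intro z
    rw [prod_erase_sub_quotientFunc 𝒮ℒ F z]
  refine ⟨Nat.card (Trace.Q N),
    fun e z => (-1) ^ e * ((Nat.card (Trace.Q N) - e : ℕ) : ℂ) * esymmMF 𝒮ℒ F e z,
    {q : Trace.Q N // q ≠ (QuotientGroup.mk (1 : ↥𝒮ℒ) : Trace.Q N)}, inferInstance,
    fun i => Trace.cosetRep N i.1, Nat.card_pos, fun e => ?_, fun i => Trace.cosetRep_notMem N i.1 i.2,
    fun z => ?_, fun k f hf => ?_⟩
  · have h1 : (fun z => (-1 : ℂ) ^ e * ((Nat.card (Trace.Q N) - e : ℕ) : ℂ) * esymmMF 𝒮ℒ F e z) =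
        ((-1 : ℂ) ^ e * ((Nat.card (Trace.Q N) - e : ℕ) : ℂ)) • ⇑(esymmMF 𝒮ℒ F e) := by
      ext z
      simp
    beta_reduce
    rw [h1]
    exact IsMF.smul _ (IsMF.coe _)
  · rw [key z]
    rw [Finset.prod_subtype (Finset.univ.erase (QuotientGroup.mk (1 : ↥𝒮ℒ) : Trace.Q N))
      (p := fun q => q ≠ (QuotientGroup.mk (1 : ↥𝒮ℒ) : Trace.Q N)) (fun q => by simp)
      (fun q => F z - quotientFunc F q z)]
    refine Finset.prod_congr rfl fun i _ => ?_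
    rw [Trace.slash_cosetRep]
  · obtain ⟨f, rfl⟩ := hf
    refine ⟨fun e z => (-1) ^ e * lagrangeMF 𝒮ℒ f F e z, fun e => ?_, fun z => ?_⟩
    · have h1 : (fun z => (-1 : ℂ) ^ e * lagrangeMF 𝒮ℒ f F e z) =
          ((-1 : ℂ) ^ e) • ⇑(lagrangeMF 𝒮ℒ f F e) := by
        ext z
        simp
      beta_reduce
      rw [h1]
      exact IsMF.smul _ (IsMF.coe _)
    · rw [key z, mul_prod_erase_sub_quotientFunc 𝒮ℒ f F z]

open Fermat.Agent.Lib.TraceInterp in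
theorem integrality_package (N : ℕ) [NeZero N] {k : ℤ} {f : ℍ → ℂ} (hf : IsMF (G0 N) k f) :
    ∃ (m : ℕ) (c : ℕ → ℍ → ℂ), 0 < m ∧ (∀ r : ℕ, IsMF 𝒮ℒ (k * r) (c r)) ∧
      ∀ z, f z ^ m + ∑ r ∈ Finset.Icc 1 m, c r z * f z ^ (m - r) = 0 := by
  obtain ⟨f, rfl⟩ := hf
  refine ⟨Nat.card (Trace.Q N), fun r z => (-1) ^ r * esymmMF 𝒮ℒ f r z, Nat.card_pos,
    fun r => ?_, fun z => Trace.integrality_core N f z⟩
  have h1 : (fun z => (-1 : ℂ) ^ r * esymmMF 𝒮ℒ f r z) =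
      ((-1 : ℂ) ^ r) • ⇑(esymmMF 𝒮ℒ f r) := by
    ext z
    simp
  beta_reduce
  rw [h1]
  exact IsMF.smul _ (IsMF.coe _)

open Fermat.Agent.Lib.TraceInterp in
theorem integrality_package_cusp (N : ℕ) [NeZero N] {k : ℤ} {f : ℍ → ℂ}
    (hf : IsCF (G0 N) k f) :
    ∃ (m : ℕ) (c : ℕ → ℍ → ℂ), 0 < m ∧ (∀ r : ℕ, 1 ≤ r → IsCF 𝒮ℒ (k * r) (c r)) ∧
      ∀ z, f z ^ m + ∑ r ∈ Finset.Icc 1 m, c r z * f z ^ (m - r) = 0 := by
  obtain ⟨f, rfl⟩ := hf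
  refine ⟨Nat.card (Trace.Q N), fun r z => (-1) ^ r * esymmMF 𝒮ℒ f r z, Nat.card_pos,
    fun r hr => ?_, fun z => Trace.integrality_core N f z⟩
  obtain ⟨j, rfl⟩ : ∃ j, r = j + 1 := ⟨r - 1, by omega⟩
  have h1 : (fun z => (-1 : ℂ) ^ (j + 1) * esymmMF 𝒮ℒ f (j + 1) z) =
      ((-1 : ℂ) ^ (j + 1)) • ⇑(esymmCF 𝒮ℒ f j) := by
    ext z
    simp only [Pi.smul_apply, smul_eq_mul, coe_esymmCF]
  beta_reduce
  rw [h1]
  exact IsCF.smul _ (IsCF.coe _)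

end Fermat.Agent.S23
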