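import Fermat.Agent.S23.Defs
import Fermat.Agent.Lib.LevelOneInt

set_option autoImplicit false

/-!
# S23, module A: level one forms

Wrappers around `Fermat.Agent.Lib.LevelOneInt` in the unbundled vocabulary of
`Fermat.Agent.S23.Defs`.
-/

namespace Fermat.Agent.S23

open UpperHalfPlane Filter
open scoped MatrixGroups ModularForm Manifold

/-- Every level one modular form is a finite `ℂ`-linear combination of level one modular forms
with integral `q`-expansion. -/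
theorem levelOne_int_span {k : ℤ} {g : ℍ → ℂ} (hg : IsMF 𝒮ℒ k g) :
    ∃ (n : ℕ) (c : Fin n → ℂ) (b : Fin n → ℍ → ℂ),
      (∀ i, IsMF 𝒮ℒ k (b i)) ∧ (∀ i j, ∃ m : ℤ, (qExpansion 1 (b i)).coeff j = m) ∧
      g = ∑ i, c i • b i := by
  obtain ⟨G, rfl⟩ := hg
  have hG : G ∈ Submodule.span ℂ {g : ModularForm 𝒮ℒ k |
      ∀ n : ℕ, ∃ m : ℤ, (qExpansion 1 g).coeff n = (m : ℂ)} := by
    rw [Fermat.Agent.Lib.LevelOneInt.span_intCoeff_eq_top]; trivial
  rw [Submodule.mem_span_set'] at hG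
  obtain ⟨n, c, b, rfl⟩ := hG
  refine ⟨n, c, fun i => ⇑(b i : ModularForm 𝒮ℒ k), fun i => IsMF.coe _, fun i j => (b i).2 j, ?_⟩
  rw [FunLike.coe_sum]
  rfl

/-- Conjugating the `q`-expansion of a level one modular form by a ring endomorphism of `ℂ`
gives the `q`-expansion of a level one modular form. -/
theorem levelOne_conj (σ : ℂ →+* ℂ) {k : ℤ} {g : ℍ → ℂ} (hg : IsMF 𝒮ℒ k g) :
    ∃ g', IsMF 𝒮ℒ k g' ∧ qExpansion 1 g' = (qExpansion 1 g).map σ := by
  obtain ⟨G, rfl⟩ := hg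
  obtain ⟨G', hG'⟩ := Fermat.Agent.Lib.LevelOneInt.exists_conj k σ G
  refine ⟨⇑G', IsMF.coe _, ?_⟩
  ext n
  rw [hG', PowerSeries.coeff_map]

/-- Conjugating the `q`-expansion of a level one cusp form by a ring endomorphism of `ℂ`
gives the `q`-expansion of a level one cusp form. -/
theorem levelOne_conj_cusp (σ : ℂ →+* ℂ) {k : ℤ} {g : ℍ → ℂ} (hg : IsCF 𝒮ℒ k g) :
    ∃ g', IsCF 𝒮ℒ k g' ∧ qExpansion 1 g' = (qExpansion 1 g).map σ := by
  obtain ⟨G, rfl⟩ := hg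
  obtain ⟨G', hG'⟩ := Fermat.Agent.Lib.LevelOneInt.exists_conj_cusp k σ G
  refine ⟨⇑G', IsCF.coe _, ?_⟩
  ext n
  rw [hG', PowerSeries.coeff_map]

end Fermat.Agent.S23
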