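import Fermat.Agent.S23.LevelOne
import Fermat.Agent.S23.IntegralClosure
import Fermat.Agent.S23.Trace

set_option autoImplicit false

namespace Fermat.Agent.S23

open UpperHalfPlane Filter
open scoped MatrixGroups ModularForm Manifold

namespace Conj

lemma map_eq_self_of_int {σ : ℂ →+* ℂ} {p : PowerSeries ℂ}
    (h : ∀ n, ∃ m : ℤ, p.coeff n = m) : p.map σ = p := by
  ext n
  obtain ⟨m, hm⟩ := h n
  simp [PowerSeries.coeff_map, hm]

lemma isMF_term (N : ℕ) {w k : ℤ} {m e : ℕ} (he : e < m) {a F : ℍ → ℂ}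
    (ha : IsMF 𝒮ℒ (k + w * e) a) (hF : IsMF (G0 N) w F) :
    IsMF (G0 N) (k + w * ((m - 1 : ℕ) : ℤ)) (a * F ^ (m - 1 - e)) := by
  refine ((ha.toG0 N).mul (hF.pow (m - 1 - e))).weight_congr ?_
  have h1 : ((m - 1 - e : ℕ) : ℤ) = ((m - 1 : ℕ) : ℤ) - e := by
    have : e ≤ m - 1 := by omega
    push_cast [Nat.cast_sub this]
    ring
  rw [h1]
  ring

end Conj

open Conj in
/-- **Module H.** `S_k(Γ₀(N))` is stable under conjugation of `q`-expansions by any ring
endomorphism `σ` of `ℂ`, given one auxiliary form `F` of level `Γ₀(N)` with integral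
`q`-expansion whose stabiliser in `SL(2, ℤ)` is exactly `Γ₀(N)` (e.g. `F = Δ(N z)`). -/
theorem conj_isCF_of (N : ℕ) [NeZero N] (σ : ℂ →+* ℂ) {w : ℤ} {F : ℍ → ℂ}
    (hF : IsMF (G0 N) w F) (hFint : ∀ n, ∃ m : ℤ, (qExpansion 1 F).coeff n = m)
    (hFne : ∀ γ : SL(2, ℤ), γ ∉ CongruenceSubgroup.Gamma0 N → F ∣[w] γ ≠ F)
    {k : ℤ} {f : ℍ → ℂ} (hf : IsCF (G0 N) k f) :
    ∃ g, IsCF (G0 N) k g ∧ qExpansion 1 g = (qExpansion 1 f).map σ := by
  classical
  have hFn : Nice F := hF.niceG0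
  have hFσ : (qExpansion 1 F).map σ = qExpansion 1 F :=
    map_eq_self_of_int hFint
  have hfm : IsMF (G0 N) k f := hf.isMF
  have hfn : Nice f := hfm.niceG0
  have hσinj : Function.Injective (PowerSeries.map σ) :=
    PowerSeries.map_injective σ σ.injective
  obtain ⟨m, ψ, ι, _, γ, hm, hψ, hγ, hD, hq⟩ := trace_package N hF
  obtain ⟨q, hq1, hq2⟩ := hq k f hfm
  -- the denominator `D`
  set D : ℍ → ℂ := ∑ e ∈ Finset.range m, ψ e * F ^ (m - 1 - e) with hDdef
  have hDapply : ∀ z, D z = ∑ e ∈ Finset.range m, ψ e z * F z ^ (m - 1 - e) := by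
    intro z; simp [hDdef]
  have hψn : ∀ e, Nice (ψ e) := fun e => (hψ e).niceSL
  have hqn : ∀ e, Nice (q e) := fun e => (hq1 e).niceSL
  have hDn : Nice D := Nice.sum _ fun e _ => (hψn e).mul (hFn.pow _)
  have hD0 : D ≠ 0 := by
    have hprod : D = ∏ i, (F - F ∣[w] γ i) := by
      ext z
      rw [hDapply, hD z]
      simp [Finset.prod_apply]
    rw [hprod]
    intro h0
    have hholo : ∀ i ∈ (Finset.univ : Finset ι), MDiff (F - F ∣[w] γ i) := by
      intro i _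
      refine hFn.holo.sub ?_
      rw [ModularForm.SL_slash]
      exact hFn.holo.slash w _
    rw [UpperHalfPlane.prod_eq_zero_iff hholo] at h0
    obtain ⟨i, -, hi⟩ := h0
    exact hFne (γ i) (hγ i) (sub_eq_zero.mp hi).symm
  have hqD : qExpansion 1 D =
      ∑ e ∈ Finset.range m, qExpansion 1 (ψ e) * qExpansion 1 F ^ (m - 1 - e) := by
    rw [hDdef, Nice.qExp_sum _ fun e _ => (hψn e).mul (hFn.pow _)]
    refine Finset.sum_congr rfl fun e _ => ?_
    rw [(hψn e).qExp_mul (hFn.pow _), hFn.qExp_pow]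
  -- conjugate the level one coefficients
  choose ψ' hψ' hψ'q using fun e => levelOne_conj σ (hψ e)
  choose q' hq' hq'q using fun e => levelOne_conj σ (hq1 e)
  have hψ'n : ∀ e, Nice (ψ' e) := fun e => (hψ' e).niceSL
  have hq'n : ∀ e, Nice (q' e) := fun e => (hq' e).niceSL
  set Den : ℍ → ℂ := ∑ e ∈ Finset.range m, ψ' e * F ^ (m - 1 - e) with hDendef
  set Num : ℍ → ℂ := ∑ e ∈ Finset.range m, q' e * F ^ (m - 1 - e) with hNumdef
  set W : ℤ := w * ((m - 1 : ℕ) : ℤ) with hW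
  have hDen : IsMF (G0 N) W Den := by
    refine IsMF.sum _ fun e he => ?_
    have h1 : IsMF 𝒮ℒ (0 + w * (e : ℤ)) (ψ' e) := (hψ' e).weight_congr (by ring)
    exact (isMF_term N (Finset.mem_range.mp he) h1 hF).weight_congr (by rw [hW]; ring)
  have hNum : IsMF (G0 N) (k + W) Num := by
    refine IsMF.sum _ fun e he => ?_
    exact isMF_term N (Finset.mem_range.mp he) (hq' e) hF
  have hDenn : Nice Den := hDen.niceG0
  have hNumn : Nice Num := hNum.niceG0
  have hqDen : qExpansion 1 Den = (qExpansion 1 D).map σ := by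
    rw [hDendef, Nice.qExp_sum _ fun e _ => (hψ'n e).mul (hFn.pow _), hqD, map_sum]
    refine Finset.sum_congr rfl fun e _ => ?_
    rw [(hψ'n e).qExp_mul (hFn.pow _), hFn.qExp_pow, map_mul, map_pow, hψ'q e, hFσ]
  have hDen0 : Den ≠ 0 := by
    intro h0
    have h1 : qExpansion 1 Den = 0 := hDenn.qExp_eq_zero_iff.mpr h0
    rw [hqDen] at h1
    have h2 : qExpansion 1 D = 0 := hσinj (by rw [h1, map_zero])
    exact hD0 (hDn.qExp_eq_zero_iff.mp h2)
  have hfD : f * D = ∑ e ∈ Finset.range m, q e * F ^ (m - 1 - e) := by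
    ext z
    rw [Pi.mul_apply, hDapply, hq2 z]
    simp
  have hqNum : qExpansion 1 Num = (qExpansion 1 f).map σ * qExpansion 1 Den := by
    have h1 : qExpansion 1 f * qExpansion 1 D =
        ∑ e ∈ Finset.range m, qExpansion 1 (q e) * qExpansion 1 F ^ (m - 1 - e) := by
      rw [← hfn.qExp_mul hDn, hfD, Nice.qExp_sum _ fun e _ => (hqn e).mul (hFn.pow _)]
      refine Finset.sum_congr rfl fun e _ => ?_
      rw [(hqn e).qExp_mul (hFn.pow _), hFn.qExp_pow]
    rw [hqDen, ← map_mul, h1, map_sum, hNumdef,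
      Nice.qExp_sum _ fun e _ => (hq'n e).mul (hFn.pow _)]
    refine Finset.sum_congr rfl fun e _ => ?_
    rw [(hq'n e).qExp_mul (hFn.pow _), hFn.qExp_pow, map_mul, map_pow, hq'q e, hFσ]
  -- integrality
  obtain ⟨M, c, hM, hc, hrel⟩ := integrality_package_cusp N hf
  have hcn : ∀ r, 1 ≤ r → Nice (c r) := fun r hr => (hc r hr).isMF.niceSL
  have hex : ∀ r : ℕ, ∃ C : ℍ → ℂ, 1 ≤ r → (IsCF 𝒮ℒ (k * r) C ∧
      qExpansion 1 C = (qExpansion 1 (c r)).map σ) := by
    intro r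
    by_cases hr : 1 ≤ r
    · obtain ⟨C, hC1, hC2⟩ := levelOne_conj_cusp σ (hc r hr)
      exact ⟨C, fun _ => ⟨hC1, hC2⟩⟩
    · exact ⟨0, fun h => absurd h hr⟩
  choose C hC using hex
  have hCn : ∀ r, 1 ≤ r → Nice (C r) := fun r hr => (hC r hr).1.isMF.niceSL
  have hrelf : f ^ M + ∑ r ∈ Finset.Icc 1 M, c r * f ^ (M - r) = 0 := by
    ext z
    simpa using hrel z
  have hqrelf : qExpansion 1 f ^ M +
      ∑ r ∈ Finset.Icc 1 M, qExpansion 1 (c r) * qExpansion 1 f ^ (M - r) = 0 := by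
    have h1 := congrArg (qExpansion 1) hrelf
    rw [qExpansion_zero, (hfn.pow M).qExp_add (Nice.sum _ fun r hr =>
        (hcn r (Finset.mem_Icc.mp hr).1).mul (hfn.pow _)), hfn.qExp_pow,
      Nice.qExp_sum _ fun r hr => (hcn r (Finset.mem_Icc.mp hr).1).mul (hfn.pow _)] at h1
    rw [← h1]
    congr 1
    refine Finset.sum_congr rfl fun r hr => ?_
    rw [(hcn r (Finset.mem_Icc.mp hr).1).qExp_mul (hfn.pow _), hfn.qExp_pow]
  set R : ℍ → ℂ := Num ^ M + ∑ r ∈ Finset.Icc 1 M, C r * Num ^ (M - r) * Den ^ r with hRdef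
  have hRterm : ∀ r ∈ Finset.Icc 1 M, Nice (C r * Num ^ (M - r) * Den ^ r) := fun r hr =>
    ((hCn r (Finset.mem_Icc.mp hr).1).mul (hNumn.pow _)).mul (hDenn.pow _)
  have hRn : Nice R := (hNumn.pow M).add (Nice.sum _ hRterm)
  have hR0 : R = 0 := by
    rw [← hRn.qExp_eq_zero_iff, hRdef, (hNumn.pow M).qExp_add (Nice.sum _ hRterm),
      hNumn.qExp_pow, Nice.qExp_sum _ hRterm]
    set S := (qExpansion 1 f).map σ with hS
    set P := qExpansion 1 Den with hP
    have h2 : ∀ r ∈ Finset.Icc 1 M, qExpansion 1 (C r * Num ^ (M - r) * Den ^ r) =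
        P ^ M * ((qExpansion 1 (c r)).map σ * S ^ (M - r)) := by
      intro r hr
      have hr' := Finset.mem_Icc.mp hr
      rw [((hCn r hr'.1).mul (hNumn.pow _)).qExp_mul (hDenn.pow _),
        (hCn r hr'.1).qExp_mul (hNumn.pow _), hNumn.qExp_pow, hDenn.qExp_pow, (hC r hr'.1).2,
        hqNum]
      have : P ^ M = P ^ (M - r) * P ^ r := by rw [← pow_add, Nat.sub_add_cancel hr'.2]
      rw [this, mul_pow]
      ring
    rw [Finset.sum_congr rfl h2, ← Finset.mul_sum, hqNum, mul_pow, mul_comm (S ^ M) (P ^ M),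
      ← mul_add]
    have h3 : S ^ M + ∑ r ∈ Finset.Icc 1 M, (qExpansion 1 (c r)).map σ * S ^ (M - r) = 0 := by
      have := congrArg (PowerSeries.map σ) hqrelf
      simpa [map_add, map_sum, map_mul, map_pow] using this
    rw [h3, mul_zero]
  have hrel' : ∀ z, Num z ^ M + ∑ r ∈ Finset.Icc 1 M, C r z * Num z ^ (M - r) * Den z ^ r = 0 := by
    intro z
    have := congrFun hR0 z
    simpa [hRdef] using this
  obtain ⟨G, hG, hGD⟩ := exists_isCF_of_integral N hM hNum hDen hDen0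
    (C := C) (fun r hr => (hC r hr).1) hrel'
  refine ⟨G, hG, ?_⟩
  have hGn : Nice G := hG.isMF.niceG0
  have h4 : qExpansion 1 G * qExpansion 1 Den = (qExpansion 1 f).map σ * qExpansion 1 Den := by
    rw [← hGn.qExp_mul hDenn, hGD, hqNum]
  have hP0 : qExpansion 1 Den ≠ 0 := fun h => hDen0 (hDenn.qExp_eq_zero_iff.mp h)
  exact mul_right_cancel₀ hP0 h4

end Fermat.Agent.S23
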