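import Fermat.Agent.S23.Defs
import Fermat.Agent.Lib.DeltaExpand
import Fermat.Agent.Lib.DeltaLevelN

/-!
# S23, Module C: the form `Δ(N z)` and its conjugates

Thin wrapper with the names of the S23 plan.  The mathematics is in
`Fermat.Agent.Lib.DeltaSlash` (slash formula), `Fermat.Agent.Lib.DeltaExpand`
(`t`-expansions, `t = exp(2πi z/N)`) and `Fermat.Agent.Lib.DeltaLevelN` (cusp form of level
`Γ₀(N)`).
-/

set_option autoImplicit false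

namespace Fermat.Agent.S23

open UpperHalfPlane Filter
open scoped MatrixGroups ModularForm Manifold

/-- `z ↦ Δ(N z)`. -/
noncomputable def deltaN (N : ℕ) [NeZero N] : ℍ → ℂ := Fermat.Agent.Lib.DeltaSlash.deltaN N

theorem deltaN_eq (N : ℕ) [NeZero N] : deltaN N = Fermat.Agent.Lib.DeltaSlash.deltaN N := rfl

theorem deltaN_apply (N : ℕ) [NeZero N] (z : ℍ) :
    deltaN N z = ModularForm.discriminant (ofComplex ((N : ℂ) * z)) := rfl

theorem deltaN_isCF (N : ℕ) [NeZero N] : IsCF (G0 N) 12 (deltaN N) :=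
  ⟨Fermat.Agent.Lib.DeltaLevelN.deltaNForm N, rfl⟩

theorem deltaN_qExpansion_int (N : ℕ) [NeZero N] (n : ℕ) :
    ∃ m : ℤ, (qExpansion 1 (deltaN N)).coeff n = m :=
  Fermat.Agent.Lib.DeltaExpand.deltaN_qExpansion_int N n

/-- The `q`-expansion of `Δ(N z)` is `Δ(q^N)`. -/
theorem deltaN_qExpansion_coeff (N : ℕ) [NeZero N] (n : ℕ) :
    (qExpansion 1 (deltaN N)).coeff n =
      if N ∣ n then (qExpansion 1 ModularForm.discriminant).coeff (n / N) else 0 :=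
  Fermat.Agent.Lib.DeltaExpand.qExpansion_deltaN_coeff N n

/-- conjugates of `Δ(N z)` by `γ ∉ Γ₀(N)`: after scaling by `d^12` the difference has an
expansion in `t = exp(2πi z/N)` with algebraic-integer coefficients and unit leading
coefficient. -/
theorem deltaN_conj (N : ℕ) [NeZero N] (γ : SL(2, ℤ)) (hγ : γ ∉ CongruenceSubgroup.Gamma0 N) :
    ∃ (d : ℕ) (G : ℍ → ℂ), 0 < d ∧
      G = (d : ℂ) ^ 12 • (deltaN N - (deltaN N) ∣[(12 : ℤ)] γ) ∧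
      AnalyticAt ℂ (cuspFunction (N : ℝ) G) 0 ∧
      (∀ n, IsIntegral ℤ ((qExpansion (N : ℝ) G).coeff n)) ∧
      ∃ (n₀ : ℕ) (u : ℂ), IsIntegral ℤ u ∧ u * (qExpansion (N : ℝ) G).coeff n₀ = 1 ∧
        ∀ n < n₀, (qExpansion (N : ℝ) G).coeff n = 0 :=
  Fermat.Agent.Lib.DeltaExpand.deltaN_conj' N γ hγ

/-- The same with coefficients in the finite `ℤ`-algebra `ℤ[ζ_N]`
(`Fermat.Agent.Lib.DeltaExpand.ringZeta N = Algebra.adjoin ℤ {exp(2πi/N)}`). -/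
theorem deltaN_conj_adjoin (N : ℕ) [NeZero N] (γ : SL(2, ℤ))
    (hγ : γ ∉ CongruenceSubgroup.Gamma0 N) :
    ∃ (d : ℕ) (G : ℍ → ℂ), 0 < d ∧
      G = (d : ℂ) ^ 12 • (deltaN N - (deltaN N) ∣[(12 : ℤ)] γ) ∧
      AnalyticAt ℂ (cuspFunction (N : ℝ) G) 0 ∧
      (∀ n, (qExpansion (N : ℝ) G).coeff n ∈ Fermat.Agent.Lib.DeltaExpand.ringZeta N) ∧
      ∃ (n₀ : ℕ) (u : ℂ), u ∈ Fermat.Agent.Lib.DeltaExpand.ringZeta N ∧
        u * (qExpansion (N : ℝ) G).coeff n₀ = 1 ∧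
        ∀ n < n₀, (qExpansion (N : ℝ) G).coeff n = 0 :=
  Fermat.Agent.Lib.DeltaExpand.deltaN_conj_adjoin N γ hγ

theorem deltaN_slash_ne (N : ℕ) [NeZero N] (γ : SL(2, ℤ)) (hγ : γ ∉ CongruenceSubgroup.Gamma0 N) :
    (deltaN N) ∣[(12 : ℤ)] γ ≠ deltaN N :=
  Fermat.Agent.Lib.DeltaExpand.deltaN_slash_ne N γ hγ

theorem deltaN_slash_of_mem (N : ℕ) [NeZero N] {γ : SL(2, ℤ)}
    (hγ : γ ∈ CongruenceSubgroup.Gamma0 N) : (deltaN N) ∣[(12 : ℤ)] γ = deltaN N :=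
  Fermat.Agent.Lib.DeltaLevelN.deltaN_slash_of_mem N hγ

end Fermat.Agent.S23
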