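import Fermat.Agent.S23.Defs
import Fermat.Agent.Lib.RatDescent
import Fermat.Prelude.Thm_ModularForm_sturm_bound_Gamma0

set_option autoImplicit false

namespace Fermat.Agent.S23

open UpperHalfPlane Filter
open scoped MatrixGroups ModularForm Manifold

namespace Assembly

variable {N : ℕ} {k : ℤ}

lemma qCoeff_add (f g : CuspForm (CongruenceSubgroup.Gamma0 N) k) (n : ℕ) :
    ModularFormClass.qCoeff ⇑(f + g) n =
      ModularFormClass.qCoeff ⇑f n + ModularFormClass.qCoeff ⇑g n := by
  simp only [ModularFormClass.qCoeff, FunLike.coe_add]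
  rw [ModularForm.qExpansion_add one_pos (one_mem_strictPeriods_G0 N) f g, map_add]

lemma qCoeff_smul (c : ℂ) (f : CuspForm (CongruenceSubgroup.Gamma0 N) k) (n : ℕ) :
    ModularFormClass.qCoeff ⇑(c • f) n = c * ModularFormClass.qCoeff ⇑f n := by
  simp only [ModularFormClass.qCoeff, FunLike.coe_smul]
  rw [ModularForm.qExpansion_smul one_pos (one_mem_strictPeriods_G0 N) c f]
  simp

/-- The q-coefficient map, as a `ℂ`-linear map. -/
noncomputable def coeffMap (N : ℕ) (k : ℤ) :
    CuspForm (CongruenceSubgroup.Gamma0 N) k →ₗ[ℂ] (ℕ → ℂ) where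
  toFun f n := ModularFormClass.qCoeff ⇑f n
  map_add' f g := by
    funext n
    exact qCoeff_add f g n
  map_smul' c f := by
    funext n
    simpa using qCoeff_smul c f n

lemma coeffMap_apply (f : CuspForm (CongruenceSubgroup.Gamma0 N) k) (n : ℕ) :
    coeffMap N k f n = ModularFormClass.qCoeff ⇑f n := rfl

/-- Truncation at the Sturm bound. -/
noncomputable def truncMap (N : ℕ) (k : ℤ) :
    CuspForm (CongruenceSubgroup.Gamma0 N) k →ₗ[ℂ]
      (Fin ((k * (CongruenceSubgroup.Gamma0 N).index).toNat / 12 + 1) → ℂ) where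
  toFun f i := ModularFormClass.qCoeff ⇑f i
  map_add' f g := by
    funext i
    exact qCoeff_add f g i
  map_smul' c f := by
    funext i
    simpa using qCoeff_smul c f i

lemma truncMap_injective (N : ℕ) [NeZero N] (k : ℤ) : Function.Injective (truncMap N k) := by
  refine (injective_iff_map_eq_zero _).mpr fun f hf => ?_
  have hmf : (ModularFormClass.modularForm f : ModularForm (CongruenceSubgroup.Gamma0 N) k) = 0 := by
    refine ModularForm.sturm_bound_Gamma0 N _ fun n hn => ?_
    have := congrFun hf ⟨n, Nat.lt_succ_of_le hn⟩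
    simpa [truncMap, ModularFormClass.qCoeff] using this
  have hcoe : (⇑f : ℍ → ℂ) = 0 := by
    have := congrArg (fun F : ModularForm (CongruenceSubgroup.Gamma0 N) k => (⇑F : ℍ → ℂ)) hmf
    simpa using this
  exact DFunLike.coe_injective (hcoe.trans rfl)

lemma finiteDimensional (N : ℕ) [NeZero N] (k : ℤ) :
    FiniteDimensional ℂ (CuspForm (CongruenceSubgroup.Gamma0 N) k) :=
  FiniteDimensional.of_injective (truncMap N k) (truncMap_injective N k)

lemma coeffMap_injective (N : ℕ) [NeZero N] (k : ℤ) : Function.Injective (coeffMap N k) := by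
  intro f g h
  apply truncMap_injective N k
  funext i
  exact congrFun h i

end Assembly

open Assembly in
theorem rational_span_of_conj (N : ℕ) [NeZero N] (k : ℤ)
    (hconj : ∀ (σ : ℂ →+* ℂ) (f : CuspForm (CongruenceSubgroup.Gamma0 N) k),
      ∃ g : CuspForm (CongruenceSubgroup.Gamma0 N) k,
        ∀ n, ModularFormClass.qCoeff g n = σ (ModularFormClass.qCoeff f n)) :
    Submodule.span ℂ {f : CuspForm (CongruenceSubgroup.Gamma0 N) k |
      ∀ n, ∃ r : ℚ, ModularFormClass.qCoeff f n = (r : ℂ)} = ⊤ := by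
  have := finiteDimensional N k
  exact Fermat.Agent.Lib.RatDescent.span_rat_of_stable' (coeffMap N k) (coeffMap_injective N k)
    (fun σ w => hconj σ w)

open Assembly in
theorem hasIntegralStructure_of_rational_span_of_bddDenom (N : ℕ) [NeZero N] (k : ℤ)
    (hspan : Submodule.span ℂ {f : CuspForm (CongruenceSubgroup.Gamma0 N) k |
      ∀ n, ∃ r : ℚ, ModularFormClass.qCoeff f n = (r : ℂ)} = ⊤)
    (hbdd : ∀ f : CuspForm (CongruenceSubgroup.Gamma0 N) k,
      (∀ n, ∃ r : ℚ, ModularFormClass.qCoeff f n = (r : ℂ)) →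
        ∃ M : ℕ, 0 < M ∧ ∀ n, ∃ m : ℤ, (M : ℂ) * ModularFormClass.qCoeff f n = (m : ℂ)) :
    CuspForm.HasIntegralStructure N k := by
  unfold CuspForm.HasIntegralStructure
  rw [eq_top_iff, ← hspan]
  refine Submodule.span_le.mpr fun f hf => ?_
  obtain ⟨M, hM, hMf⟩ := hbdd f hf
  have hM0 : (M : ℂ) ≠ 0 := by exact_mod_cast hM.ne'
  have hmem : (M : ℂ) • f ∈ (CuspForm.intLattice N k : Set _) := by
    refine Submodule.subset_span ?_
    intro n
    obtain ⟨m, hm⟩ := hMf n
    exact ⟨m, by rw [qCoeff_smul, hm]⟩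
  have : f = (M : ℂ)⁻¹ • ((M : ℂ) • f) := by
    rw [smul_smul, inv_mul_cancel₀ hM0, one_smul]
  rw [this]
  exact Submodule.smul_mem _ _ (Submodule.subset_span hmem)

end Fermat.Agent.S23
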