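import Fermat.Agent.S23.Defs
import Fermat.Agent.Lib.CoeffLattice
import Fermat.Prelude.Thm_UpperHalfPlane_qExpansion_prod
import Fermat.Prelude.Thm_UpperHalfPlane_qExpansion_coeff_nat_mul

set_option autoImplicit false

namespace Fermat.Agent.S23.BddDenom

open UpperHalfPlane Filter Fermat.Agent.S23 PowerSeries
open Fermat.Agent.Lib.CoeffLattice
open scoped MatrixGroups ModularForm Manifold

theorem isIntegral_int_mul (c : ℤ) {x : ℂ} (hx : IsIntegral ℤ x) : IsIntegral ℤ ((c : ℂ) * x) :=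
  (isIntegral_intCast (R := ℤ) (B := ℂ) c).mul hx

/-- complex numbers having a nonzero integer multiple which is an algebraic integer -/
def almostInt : Submodule ℤ ℂ where
  carrier := {x | ∃ M : ℤ, M ≠ 0 ∧ IsIntegral ℤ ((M : ℂ) * x)}
  zero_mem' := ⟨1, one_ne_zero, by simpa using isIntegral_zero⟩
  add_mem' := by
    rintro x y ⟨M, hM, hx⟩ ⟨M', hM', hy⟩
    refine ⟨M * M', mul_ne_zero hM hM', ?_⟩
    have h1 : IsIntegral ℤ ((M' : ℂ) * ((M : ℂ) * x)) := isIntegral_int_mul M' hx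
    have h2 : IsIntegral ℤ ((M : ℂ) * ((M' : ℂ) * y)) := isIntegral_int_mul M hy
    have e : ((M * M' : ℤ) : ℂ) * (x + y) = (M' : ℂ) * ((M : ℂ) * x) + (M : ℂ) * ((M' : ℂ) * y) := by
      push_cast; ring
    rw [e]
    exact h1.add h2
  smul_mem' := by
    rintro c x ⟨M, hM, hx⟩
    refine ⟨M, hM, ?_⟩
    have e : (M : ℂ) * (c • x) = (c : ℂ) * ((M : ℂ) * x) := by
      rw [zsmul_eq_mul]; ring
    rw [e]
    exact isIntegral_int_mul c hx

theorem mem_almostInt {x : ℂ} : x ∈ almostInt ↔ ∃ M : ℤ, M ≠ 0 ∧ IsIntegral ℤ ((M : ℂ) * x) :=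
  Iff.rfl

theorem rat_mul_mem_almostInt (r : ℚ) {d : ℂ} (hd : IsIntegral ℤ d) : (r : ℂ) * d ∈ almostInt := by
  refine ⟨r.den, by exact_mod_cast r.den_ne_zero, ?_⟩
  have h1 : ((r.den : ℤ) : ℂ) * ((r : ℂ) * d) = ((r.num : ℤ) : ℂ) * d := by
    have h2 : ((r.den : ℤ) : ℂ) * (r : ℂ) = ((r.num : ℤ) : ℂ) := by
      have := Rat.den_mul_eq_num r
      exact_mod_cast congrArg (fun q : ℚ => (q : ℂ)) this
    rw [← mul_assoc, h2]
  rw [h1]
  exact isIntegral_int_mul _ hd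

theorem exists_common_multiplier (s : Finset ℂ) (hs : ∀ x ∈ s, x ∈ almostInt) :
    ∃ M : ℤ, M ≠ 0 ∧ ∀ x ∈ s, IsIntegral ℤ ((M : ℂ) * x) := by
  classical
  induction s using Finset.induction_on with
  | empty => exact ⟨1, one_ne_zero, by simp⟩
  | insert a s ha ih =>
    obtain ⟨M, hM, hMs⟩ := ih fun x hx => hs x (Finset.mem_insert_of_mem hx)
    obtain ⟨M', hM', ha'⟩ := hs a (Finset.mem_insert_self a s)
    refine ⟨M * M', mul_ne_zero hM hM', ?_⟩
    intro x hx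
    rcases Finset.mem_insert.mp hx with rfl | hx
    · have e : ((M * M' : ℤ) : ℂ) * x = (M : ℂ) * ((M' : ℂ) * x) := by push_cast; ring
      rw [e]
      exact isIntegral_int_mul M ha'
    · have e : ((M * M' : ℤ) : ℂ) * x = (M' : ℂ) * ((M : ℂ) * x) := by push_cast; ring
      rw [e]
      exact isIntegral_int_mul M' (hMs x hx)

/-- An algebraic integer which is rational is an integer. -/
theorem exists_int_of_isIntegral_rat (r : ℚ) (h : IsIntegral ℤ (r : ℂ)) : ∃ m : ℤ, (r : ℂ) = m := by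
  have h' : IsIntegral ℤ r := by
    have : (r : ℂ) = algebraMap ℚ ℂ r := by simp
    rw [this] at h
    exact (isIntegral_algebraMap_iff (algebraMap ℚ ℂ).injective).mp h
  obtain ⟨m, hm⟩ := IsIntegrallyClosed.isIntegral_iff.mp h'
  exact ⟨m, by rw [← hm]; simp⟩

/-- **Denominator lemma.** If `A * Dl = U` where `A` has rational coefficients, `Dl` has
algebraic-integer coefficients with a unit leading coefficient, and the coefficients of `U` lie
in a finitely generated `ℤ`-module, then `A` has bounded denominators. -/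
theorem exists_denom_of_mul_eq (A Dl U : PowerSeries ℂ) (μ : ℕ)
    (hA : ∀ n, ∃ r : ℚ, coeff n A = r)
    (hD : ∀ n, IsIntegral ℤ (coeff n Dl)) (hDlow : ∀ n < μ, coeff n Dl = 0)
    (v : ℂ) (hv : IsIntegral ℤ v) (hvD : v * coeff μ Dl = 1)
    (Γ : Submodule ℤ ℂ) (hΓ : Γ.FG) (hU : ∀ n, coeff n U ∈ Γ) (h : A * Dl = U) :
    ∃ M : ℕ, 0 < M ∧ ∀ n, ∃ m : ℤ, (M : ℂ) * coeff n A = m := by
  classical
  -- the coefficients of `U` are almost integral
  have hUq : ∀ n, coeff n U ∈ almostInt := by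
    intro n
    rw [← h, coeff_mul]
    refine Submodule.sum_mem _ fun p _ => ?_
    obtain ⟨r, hr⟩ := hA p.1
    rw [hr]
    exact rat_mul_mem_almostInt r (hD p.2)
  have hΓ' : (Γ ⊓ almostInt).FG := hΓ.of_le inf_le_left
  obtain ⟨s, hs⟩ := hΓ'
  obtain ⟨M0, hM0, hM0s⟩ := exists_common_multiplier s (fun x hx => by
    have : x ∈ Γ ⊓ almostInt := hs ▸ Submodule.subset_span hx
    exact this.2)
  have hM0Γ : ∀ y ∈ Γ ⊓ almostInt, IsIntegral ℤ ((M0 : ℂ) * y) := by
    intro y hy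
    rw [← hs] at hy
    induction hy using Submodule.span_induction with
    | mem x hx => exact hM0s x hx
    | zero => simpa using isIntegral_zero
    | add x y _ _ hx hy => rw [mul_add]; exact hx.add hy
    | smul c x _ hx =>
      have e : (M0 : ℂ) * (c • x) = (c : ℂ) * ((M0 : ℂ) * x) := by
        rw [zsmul_eq_mul]; ring
      rw [e]
      exact isIntegral_int_mul c hx
  -- key identity
  have key : ∀ n, coeff n A * coeff μ Dl
      = coeff (n + μ) U - ∑ i ∈ Finset.range n, coeff i A * coeff (n + μ - i) Dl := by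
    intro n
    rw [← h, coeff_mul, Finset.Nat.sum_antidiagonal_eq_sum_range_succ_mk]
    have hsub : Finset.range (n + 1) ⊆ Finset.range (n + μ + 1) :=
      Finset.range_subset_range.mpr (by omega)
    rw [← Finset.sum_subset hsub (fun k hk hk' => by
      have hk1 : k < n + μ + 1 := Finset.mem_range.mp hk
      have hk2 : ¬ k < n + 1 := fun hlt => hk' (Finset.mem_range.mpr hlt)
      rw [hDlow (n + μ - k) (by omega), mul_zero])]
    rw [Finset.sum_range_succ]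
    have : n + μ - n = μ := by omega
    rw [this]
    ring
  -- main induction
  have main : ∀ n, IsIntegral ℤ ((M0 : ℂ) * coeff n A) := by
    intro n
    induction n using Nat.strong_induction_on with
    | _ n ih =>
      have h1 : (M0 : ℂ) * coeff n A
          = v * ((M0 : ℂ) * coeff (n + μ) U)
            - ∑ i ∈ Finset.range n, v * (((M0 : ℂ) * coeff i A) * coeff (n + μ - i) Dl) := by
        have h2 : (M0 : ℂ) * coeff n A = v * ((M0 : ℂ) * (coeff n A * coeff μ Dl)) := by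
          calc (M0 : ℂ) * coeff n A = (M0 : ℂ) * coeff n A * (v * coeff μ Dl) := by
                rw [hvD, mul_one]
            _ = _ := by ring
        rw [h2, key n, mul_sub, mul_sub, Finset.mul_sum, Finset.mul_sum]
        congr 1
        refine Finset.sum_congr rfl fun i _ => ?_
        ring
      rw [h1]
      refine IsIntegral.sub (hv.mul (hM0Γ _ ⟨hU _, hUq _⟩)) (IsIntegral.sum _ fun i hi => ?_)
      exact hv.mul ((ih i (Finset.mem_range.mp hi)).mul (hD _))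
  refine ⟨M0.natAbs, Int.natAbs_pos.mpr hM0, fun n => ?_⟩
  obtain ⟨r, hr⟩ := hA n
  have h3 : IsIntegral ℤ (((M0 * r : ℚ)) : ℂ) := by
    have := main n
    rw [hr] at this
    push_cast
    exact this
  obtain ⟨m, hm⟩ := exists_int_of_isIntegral_rat _ h3
  have hm' : (M0 : ℂ) * (r : ℂ) = m := by
    rw [← hm]; push_cast; rfl
  rcases Int.natAbs_eq M0 with h0 | h0
  · refine ⟨m, ?_⟩
    have e : ((M0.natAbs : ℕ) : ℂ) = (M0 : ℂ) := by
      rw [← Int.cast_natCast, ← h0]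
    rw [hr, e, hm']
  · refine ⟨-m, ?_⟩
    have e : ((M0.natAbs : ℕ) : ℂ) = -(M0 : ℂ) := by
      have h4 : ((M0.natAbs : ℕ) : ℤ) = -M0 := by omega
      rw [← Int.cast_natCast, h4, Int.cast_neg]
    rw [hr, e, neg_mul, hm', Int.cast_neg]

/-- A `ℂ`-combination of nice functions with integral `q`-expansions has its `q`-coefficients
in a finitely generated `ℤ`-module. -/
theorem hasFGCoeffs_of_int_span {g : ℍ → ℂ} {n : ℕ} (c : Fin n → ℂ) (b : Fin n → ℍ → ℂ)
    (hb : ∀ i, Nice (b i)) (hbint : ∀ i j, ∃ m : ℤ, (qExpansion 1 (b i)).coeff j = m)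
    (hg : g = ∑ i, c i • b i) : HasFGCoeffs (qExpansion 1 g) := by
  subst hg
  rw [Nice.qExp_sum _ (fun i _ => (hb i).smul (c i))]
  refine HasFGCoeffs.sum _ fun i _ => ?_
  rw [(hb i).qExp_smul]
  exact (HasFGCoeffs.of_int (hbint i)).smul _

/-- **Bounded denominators from the packages A, C, D** (all taken as hypotheses, in the shapes of
the S23 plan). -/
theorem bddDenom_of_packages (N : ℕ) [NeZero N] {F : ℍ → ℂ}
    (hF : IsMF (G0 N) 12 F)
    (hFint : ∀ n, ∃ m : ℤ, (qExpansion 1 F).coeff n = m)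
    (hconj : ∀ γ : SL(2, ℤ), γ ∉ CongruenceSubgroup.Gamma0 N →
      ∃ (d : ℕ) (G : ℍ → ℂ), 0 < d ∧
        G = (d : ℂ) ^ 12 • (F - F ∣[(12 : ℤ)] γ) ∧
        AnalyticAt ℂ (cuspFunction (N : ℝ) G) 0 ∧
        (∀ n, IsIntegral ℤ ((qExpansion (N : ℝ) G).coeff n)) ∧
        ∃ (n₀ : ℕ) (u : ℂ), IsIntegral ℤ u ∧ u * (qExpansion (N : ℝ) G).coeff n₀ = 1 ∧
          ∀ n < n₀, (qExpansion (N : ℝ) G).coeff n = 0)
    (hA : ∀ {k : ℤ} {g : ℍ → ℂ}, IsMF 𝒮ℒ k g →
      ∃ (n : ℕ) (c : Fin n → ℂ) (b : Fin n → ℍ → ℂ),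
        (∀ i, IsMF 𝒮ℒ k (b i)) ∧ (∀ i j, ∃ m : ℤ, (qExpansion 1 (b i)).coeff j = m) ∧
        g = ∑ i, c i • b i)
    (hD : ∃ (m : ℕ) (ψ : ℕ → ℍ → ℂ) (ι : Type) (_ : Fintype ι) (γ : ι → SL(2, ℤ)),
      0 < m ∧ (∀ e : ℕ, IsMF 𝒮ℒ ((12 : ℤ) * e) (ψ e)) ∧
      (∀ i, γ i ∉ CongruenceSubgroup.Gamma0 N) ∧
      (∀ z, ∑ e ∈ Finset.range m, ψ e z * F z ^ (m - 1 - e)
        = ∏ i, (F z - (F ∣[(12 : ℤ)] γ i) z)) ∧
      ∀ (k : ℤ) (f : ℍ → ℂ), IsMF (G0 N) k f →
        ∃ q : ℕ → ℍ → ℂ, (∀ e : ℕ, IsMF 𝒮ℒ (k + (12 : ℤ) * e) (q e)) ∧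
          ∀ z, f z * ∑ e ∈ Finset.range m, ψ e z * F z ^ (m - 1 - e)
            = ∑ e ∈ Finset.range m, q e z * F z ^ (m - 1 - e))
    {k : ℤ} {f : ℍ → ℂ} (hf : IsMF (G0 N) k f)
    (hrat : ∀ n, ∃ r : ℚ, (qExpansion 1 f).coeff n = r) :
    ∃ M : ℕ, 0 < M ∧ ∀ n, ∃ m : ℤ, (M : ℂ) * (qExpansion 1 f).coeff n = m := by
  classical
  obtain ⟨m, ψ, ι, hι, γ, hm, hψ, hγ, hprod, hq⟩ := hD
  obtain ⟨q, hq1, hq2⟩ := hq k f hf
  have nF : Nice F := hF.niceG0
  have nf : Nice f := hf.niceG0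
  have hNpos : 0 < N := Nat.pos_of_ne_zero (NeZero.ne N)
  -- the "different" and the numerator
  set Dfun : ℍ → ℂ := ∑ e ∈ Finset.range m, ψ e * F ^ (m - 1 - e) with hDfun
  set Ufun : ℍ → ℂ := ∑ e ∈ Finset.range m, q e * F ^ (m - 1 - e) with hUfun
  have nD : Nice Dfun := Nice.sum _ fun e _ => ((hψ e).niceSL).mul (nF.pow _)
  have nU : Nice Ufun := Nice.sum _ fun e _ => ((hq1 e).niceSL).mul (nF.pow _)
  have hfD : f * Dfun = Ufun := by
    funext z
    simp only [hDfun, hUfun, Pi.mul_apply, Finset.sum_apply, Pi.pow_apply]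
    exact hq2 z
  have hDz : ∀ z, Dfun z = ∏ i, (F z - (F ∣[(12 : ℤ)] γ i) z) := by
    intro z
    simp only [hDfun, Finset.sum_apply, Pi.mul_apply, Pi.pow_apply]
    exact hprod z
  -- `U` has coefficients in a finitely generated `ℤ`-module
  have hUfg : HasFGCoeffs (qExpansion 1 Ufun) := by
    rw [hUfun, Nice.qExp_sum _ (fun e _ => ((hq1 e).niceSL).mul (nF.pow _))]
    refine HasFGCoeffs.sum _ fun e _ => ?_
    rw [((hq1 e).niceSL).qExp_mul (nF.pow _), nF.qExp_pow]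
    refine HasFGCoeffs.mul ?_ ((HasFGCoeffs.of_int hFint).pow _)
    obtain ⟨n, c, b, hb, hbint, hg⟩ := hA (hq1 e)
    exact hasFGCoeffs_of_int_span c b (fun i => (hb i).niceSL) hbint hg
  -- the conjugates
  choose d G hd hG hGan hGint n₀ u hu hu1 hu0 using fun i => hconj (γ i) (hγ i)
  set C : ℂ := ∏ i, (d i : ℂ) ^ 12 with hC
  have hprodG : ∏ i, G i = C • Dfun := by
    funext z
    rw [Finset.prod_apply, Pi.smul_apply, smul_eq_mul, hDz z, hC, ← Finset.prod_mul_distrib]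
    refine Finset.prod_congr rfl fun i _ => ?_
    rw [hG i]
    simp
  -- the expansion of the product in `exp(2πiz/N)`
  have hP : IsUnitalOver (integralClosure ℤ ℂ) (qExpansion (N : ℝ) (C • Dfun)) := by
    rw [← hprodG, UpperHalfPlane.qExpansion_prod Finset.univ (fun i _ => hGan i)]
    exact IsUnitalOver.prod _ fun i _ =>
      IsUnitalOver.of_coeff (fun n => hGint i n) (n₀ i) (u i) (hu i) (hu1 i) (hu0 i)
  obtain ⟨u', v', ν, R, hu', hv', huv', hR, hR0, hPeq⟩ := hP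
  have hPc : ∀ n, (qExpansion (N : ℝ) (C • Dfun)).coeff n
      = u' * (if ν ≤ n then R.coeff (n - ν) else 0) := by
    intro n
    rw [hPeq, coeff_smul, coeff_X_pow_mul', smul_eq_mul]
  -- transfer from period `N` to period `1`
  have nCD : Nice (C • Dfun) := nD.smul C
  have htr : ∀ n, (qExpansion (N : ℝ) (C • Dfun)).coeff n
      = if N ∣ n then (qExpansion 1 (C • Dfun)).coeff (n / N) else 0 := by
    intro n
    have := UpperHalfPlane.qExpansion_coeff_nat_mul (h := 1) one_pos nCD.per nCD.holo nCD.bdd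
      (M := N) hNpos n
    rwa [mul_one] at this
  have hPν : v' * (qExpansion (N : ℝ) (C • Dfun)).coeff ν = 1 := by
    rw [hPc ν, if_pos le_rfl, Nat.sub_self, hR0, mul_one, mul_comm, huv']
  have hNν : N ∣ ν := by
    by_contra hcon
    rw [htr ν, if_neg hcon, mul_zero] at hPν
    exact zero_ne_one hPν
  obtain ⟨μ, hμ⟩ := hNν
  have hDl : ∀ j, (qExpansion 1 (C • Dfun)).coeff j
      = (qExpansion (N : ℝ) (C • Dfun)).coeff (N * j) := by
    intro j
    rw [htr (N * j), if_pos (dvd_mul_right N j), Nat.mul_div_cancel_left j hNpos]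
  have hPint : ∀ n, IsIntegral ℤ ((qExpansion (N : ℝ) (C • Dfun)).coeff n) := by
    intro n
    rw [hPc n]
    refine IsIntegral.mul hu' ?_
    split_ifs
    · exact hR _
    · exact isIntegral_zero
  obtain ⟨Γ, hΓ, hUΓ⟩ := hUfg.smul C
  refine exists_denom_of_mul_eq (qExpansion 1 f) (qExpansion 1 (C • Dfun))
    (C • qExpansion 1 Ufun) μ hrat (fun n => ?_) (fun n hn => ?_) v' hv' ?_ Γ hΓ hUΓ ?_
  · rw [hDl n]; exact hPint _
  · rw [hDl n, hPc, if_neg (by rw [hμ]; exact not_le.mpr (Nat.mul_lt_mul_of_pos_left hn hNpos)),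
      mul_zero]
  · rw [hDl μ, ← hμ]; exact hPν
  · rw [nD.qExp_smul, mul_smul_comm, ← nf.qExp_mul nD, hfD]

end Fermat.Agent.S23.BddDenom
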