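import Fermat.Agent.Lib.RatDescent

set_option autoImplicit false

namespace Fermat.Agent.S23

theorem span_rational_of_stable {n : ℕ} (W : Submodule ℂ (Fin n → ℂ))
    (hfix : ∀ x : ℂ, (∀ σ : ℂ →+* ℂ, σ x = x) → ∃ r : ℚ, x = r)
    (hW : ∀ σ : ℂ →+* ℂ, ∀ w ∈ W, (fun i => σ (w i)) ∈ W) :
    ∀ w ∈ W, w ∈ Submodule.span ℂ {v | v ∈ W ∧ ∀ i, ∃ r : ℚ, v i = r} := by
  intro w hw
  have _ := hfix
  rw [Fermat.Agent.Lib.RatDescent.span_rat_of_stable W hW]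
  exact hw

end Fermat.Agent.S23
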