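import Fermat.Agent.Lib.RatDescent

set_option autoImplicit false

namespace Fermat.Agent.S23

theorem exists_ringHom_ne {x : ℂ} (hx : ∀ r : ℚ, (r : ℂ) ≠ x) : ∃ σ : ℂ →+* ℂ, σ x ≠ x := by
  by_contra h
  push Not at h
  obtain ⟨r, hr⟩ := Fermat.Agent.Lib.RatDescent.exists_rat_of_fixed x h
  exact hx r hr.symm

end Fermat.Agent.S23
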